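import Fermat.Agent.ECTorsion.Count
import Fermat.Prelude.Def_FLTPrelim_GaloisRep
import Fermat.Prelude.Def_EllipticCurve_FrobeniusTrace
import Fermat.Prelude.Def_GaloisRep_Residual
import Mathlib.FieldTheory.Galois.Infinite

/-!
# Torsion of elliptic curves over `ℚ̄`

Cardinality and rank of `E[n]` for base changes to algebraically closed fields, and the fact that
the Galois action on `E(ℚ̄)[n]` factors through a finite extension of `ℚ`.
-/

namespace Fermat.Agent.ECTorsion

open WeierstrassCurve WeierstrassCurve.Affine WeierstrassCurve.Affine.Point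
open scoped WeierstrassCurve.Affine

section General

variable {K : Type*} [Field K] [DecidableEq K] [IsAlgClosed K]
  {R : Type*} [CommRing R] [Algebra R K] (W : WeierstrassCurve R)

omit [DecidableEq K] [IsAlgClosed K] in
/-- A base change to a field with non-zero discriminant is elliptic. -/
lemma isElliptic_baseChange (hΔ : algebraMap R K W.Δ ≠ 0) : (W⁄K).IsElliptic :=
  ⟨by rw [show (W⁄K).Δ = algebraMap R K W.Δ from W.map_Δ _]; exact isUnit_iff_ne_zero.mpr hΔ⟩

/-- `#E(K)[n] = n²` for a base change to an algebraically closed field. -/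
theorem card_torsionBy_baseChange (hΔ : algebraMap R K W.Δ ≠ 0) {n : ℕ} (hn : (n : K) ≠ 0) :
    Nat.card (Submodule.torsionBy ℤ (W⁄K).toAffine.Point n) = n ^ 2 :=
  haveI := isElliptic_baseChange W hΔ
  card_torsionBy (W⁄K) hn

/-- The `n`-torsion of a base change to an algebraically closed field is finite. -/
theorem finite_torsionBy_baseChange (hΔ : algebraMap R K W.Δ ≠ 0) {n : ℕ} (hn : (n : K) ≠ 0) :
    Finite (Submodule.torsionBy ℤ (W⁄K).toAffine.Point n) :=
  haveI := isElliptic_baseChange W hΔ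
  finite_torsionBy (W⁄K) hn

/-- `E(K)[p]` is a two-dimensional `ZMod p`-vector space. -/
theorem finrank_torsionBy (hΔ : algebraMap R K W.Δ ≠ 0) (p : ℕ) [Fact p.Prime]
    (hp : (p : K) ≠ 0) :
    Module.finrank (ZMod p) (Submodule.torsionBy ℤ (W⁄K).toAffine.Point p) = 2 := by
  have := finite_torsionBy_baseChange W hΔ hp
  have h := Module.natCard_eq_pow_finrank (K := ZMod p)
    (V := Submodule.torsionBy ℤ (W⁄K).toAffine.Point p)
  rw [card_torsionBy_baseChange W hΔ hp, Nat.card_zmod] at h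
  exact (Nat.pow_right_injective (Fact.out (p := p.Prime)).two_le h).symm

end General

section Rat

local notation "ℚbar" => AlgebraicClosure ℚ

variable (W : WeierstrassCurve ℚ)

/-- `#E(ℚ̄)[n] = n²`. -/
theorem card_torsionBy_rat (hΔ : W.Δ ≠ 0) {n : ℕ} (hn : n ≠ 0) :
    Nat.card (Submodule.torsionBy ℤ (W⁄ℚbar).Point n) = n ^ 2 :=
  card_torsionBy_baseChange (K := ℚbar) W (by simpa using hΔ) (by exact_mod_cast hn)

/-- `E(ℚ̄)[n]` is finite. -/
theorem finite_torsionBy_rat (hΔ : W.Δ ≠ 0) {n : ℕ} (hn : n ≠ 0) :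
    Finite (Submodule.torsionBy ℤ (W⁄ℚbar).Point n) :=
  finite_torsionBy_baseChange (K := ℚbar) W (by simpa using hΔ) (by exact_mod_cast hn)

/-- `E(ℚ̄)[p]` is a two-dimensional `ZMod p`-vector space. -/
theorem finrank_torsionBy_rat (hΔ : W.Δ ≠ 0) (p : ℕ) [Fact p.Prime] :
    Module.finrank (ZMod p) (Submodule.torsionBy ℤ (W⁄ℚbar).Point p) = 2 :=
  finrank_torsionBy (K := ℚbar) W (by simpa using hΔ) p
    (by exact_mod_cast (Fact.out (p := p.Prime)).ne_zero)

/-- The `n`-torsion is fixed pointwise by the Galois group of a finite extension of `ℚ`. -/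
theorem exists_finiteLevel_torsionBy (hΔ : W.Δ ≠ 0) {n : ℕ} (hn : n ≠ 0) :
    ∃ L : IntermediateField ℚ ℚbar, FiniteDimensional ℚ L ∧
      ∀ σ : ℚbar ≃ₐ[ℚ] ℚbar, (∀ z ∈ L, σ z = z) →
        ∀ P : Submodule.torsionBy ℤ (W⁄ℚbar).Point n, σ • P = P := by
  classical
  let coords : (W⁄ℚbar).Point → Set ℚbar := fun P => match P with
    | 0 => ∅
    | .some x y _ => {x, y}
  have hfin : (⋃ P : Submodule.torsionBy ℤ (W⁄ℚbar).Point n, coords P.1).Finite := by
    have := finite_torsionBy_rat W hΔ hn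
    refine Set.finite_iUnion fun P => ?_
    rcases P with ⟨_ | _, _⟩ <;> simp [coords]
  have := hfin.to_subtype
  refine ⟨IntermediateField.adjoin ℚ (⋃ P : Submodule.torsionBy ℤ (W⁄ℚbar).Point n, coords P.1),
    IntermediateField.finiteDimensional_adjoin fun z _ =>
      (AlgebraicClosure.isAlgebraic ℚ).isAlgebraic z |>.isIntegral,
    fun σ hσ P => Subtype.ext ?_⟩
  have hmem : ∀ z ∈ coords P.1, σ z = z := fun z hz =>
    hσ z (IntermediateField.subset_adjoin _ _ (Set.mem_iUnion_of_mem P hz))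
  show σ • P.1 = P.1
  generalize P.1 = Q at hmem ⊢
  cases Q with
  | zero => rfl
  | some x y h =>
    rw [algEquiv_smul_def, Point.map_some, Point.some.injEq]
    exact ⟨hmem x (by simp [coords]), hmem y (by simp [coords])⟩

/-- The Galois representation on `E(ℚ̄)[n]` factors through a finite extension. -/
theorem galoisFactorsThroughFiniteLevel (hΔ : W.Δ ≠ 0) {n : ℕ} (hn : n ≠ 0) :
    GaloisFactorsThroughFiniteLevel
      (WeierstrassCurve.Affine.Point.galoisRepModuleEnd (K := ℚbar) ℚ W n) := by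
  obtain ⟨L, hL, h⟩ := exists_finiteLevel_torsionBy W hΔ hn
  exact ⟨L, hL, fun σ hσ => LinearMap.ext fun P => h σ hσ P⟩

end Rat

section Int

local notation "ℚbar" => AlgebraicClosure ℚ

variable (W : WeierstrassCurve ℤ)

lemma Δ_map_intCast_ne_zero (hΔ : W.Δ ≠ 0) : (W.map (Int.castRingHom ℚ)).Δ ≠ 0 := by
  simpa [WeierstrassCurve.map_Δ] using hΔ

/-- `#E[n] = n²` for an integral model. -/
theorem card_torsionBy_int (hΔ : W.Δ ≠ 0) {n : ℕ} (hn : n ≠ 0) :
    Nat.card (Submodule.torsionBy ℤ ((W.map (Int.castRingHom ℚ))⁄ℚbar).Point n) = n ^ 2 :=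
  card_torsionBy_rat _ (Δ_map_intCast_ne_zero W hΔ) hn

end Int

end Fermat.Agent.ECTorsion
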