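import Fermat.Agent.ECTorsion.Multiplication
import Mathlib.AlgebraicGeometry.EllipticCurve.DivisionPolynomial.Degree
import Mathlib.FieldTheory.IsAlgClosed.Basic
import Mathlib.Algebra.Module.Torsion.Basic
import Mathlib.Algebra.Polynomial.FieldDivision
import Mathlib.LinearAlgebra.Dimension.Finite
import Mathlib.FieldTheory.Finiteness
import Mathlib.Algebra.Module.ZMod

/-!
# Counting torsion points on elliptic curves

Over an algebraically closed field in which `n` is invertible, multiplication by `n` is surjective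
and an elliptic curve has exactly `n ^ 2` points killed by `n`.
-/

namespace Fermat.Agent.ECTorsion

open WeierstrassCurve WeierstrassCurve.Affine Polynomial

variable {F : Type*} [Field F] (W : WeierstrassCurve F)

attribute [-simp] WeierstrassCurve.ΨSq_ofNat

/-- The Wronskian of `Φₙ` and `ΨSqₙ`. -/
noncomputable def wronskianPoly (n : ℕ) : F[X] :=
  derivative (W.Φ n) * W.ΨSq n - W.Φ n * derivative (W.ΨSq n)

lemma wronskianPoly_ne_zero {n : ℕ} (hn : (n : F) ≠ 0) : wronskianPoly W n ≠ 0 := by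
  have hn0 : n ≠ 0 := fun h => hn (by simp [h])
  rcases (show n = 1 ∨ 2 ≤ n by omega) with rfl | hn2
  · simp [wronskianPoly]
  intro h
  have h4 : 4 ≤ n ^ 2 := by nlinarith
  obtain ⟨m, hm⟩ : ∃ m, n ^ 2 = m + 2 := ⟨n ^ 2 - 2, by omega⟩
  have hm' : (n : F) ^ 2 = m + 2 := by exact_mod_cast congrArg (Nat.cast (R := F)) hm
  have dΦ : (W.Φ n).natDegree ≤ m + 2 := by simp [hm]
  have dΨ : (W.ΨSq n).natDegree ≤ m + 1 := by simpa [hm] using W.natDegree_ΨSq_le n
  have cΦ : (W.Φ n).coeff (m + 2) = 1 := by simpa [hm] using W.coeff_Φ n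
  have cΨ : (W.ΨSq n).coeff (m + 1) = (n : F) ^ 2 := by simpa [hm] using W.coeff_ΨSq n
  have dΦ' : (derivative (W.Φ n)).natDegree ≤ m + 1 :=
    (natDegree_derivative_le _).trans (by omega)
  have dΨ' : (derivative (W.ΨSq n)).natDegree ≤ m :=
    (natDegree_derivative_le _).trans (by omega)
  have h1 := coeff_mul_add_eq_of_natDegree_le dΦ' dΨ
  have h2 := coeff_mul_add_eq_of_natDegree_le dΦ dΨ'
  rw [coeff_derivative, cΦ, cΨ] at h1
  rw [coeff_derivative, cΦ, cΨ, show m + 2 + m = m + 1 + (m + 1) by omega] at h2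
  have := congrArg (fun p : F[X] => p.coeff (m + 1 + (m + 1))) h
  simp only [wronskianPoly, coeff_sub, h1, h2, coeff_zero] at this
  push_cast at this
  exact hn (pow_eq_zero_iff (two_ne_zero) |>.mp (by linear_combination this))

lemma Ψ₂Sq_ne_zero_of_isElliptic [W.IsElliptic] : W.Ψ₂Sq ≠ 0 := by
  intro h
  have h4 : (4 : F) = 0 := by rw [← W.coeff_Ψ₂Sq, h, coeff_zero]
  have hb₂ : W.b₂ = 0 := by
    simpa [Ψ₂Sq, coeff_X] using congrArg (fun p : F[X] => p.coeff 2) h
  have hb₆ : W.b₆ = 0 := by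
    simpa [Ψ₂Sq, coeff_X] using congrArg (fun p : F[X] => p.coeff 0) h
  refine W.isUnit_Δ.ne_zero ?_
  rw [WeierstrassCurve.Δ, hb₂, hb₆]
  linear_combination -2 * W.b₄ ^ 3 * h4

/-- Every abscissa is that of a non-singular point over an algebraically closed field. -/
lemma exists_nonsingular [IsAlgClosed F] [W.IsElliptic] (x : F) :
    ∃ y, W.toAffine.Nonsingular x y := by
  obtain ⟨y, hy⟩ := IsAlgClosed.exists_root (W.toAffine.polynomial.map (evalRingHom x))
    (by
      rw [(Affine.monic_polynomial (W := W.toAffine)).degree_map,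
        Affine.degree_polynomial]
      norm_num)
  refine ⟨y, Affine.equation_iff_nonsingular.mp ?_⟩
  rw [Affine.Equation, ← map_evalRingHom_eval]
  exact hy

variable [DecidableEq F]

variable [IsAlgClosed F] [W.IsElliptic]

omit [DecidableEq F] in
lemma eval_ΨSq_ne_zero_of_isRoot {n : ℕ} {x₀ r : F}
    (hr : (W.Φ n - C x₀ * W.ΨSq n).IsRoot r) : (W.ΨSq n).eval r ≠ 0 := by
  classical
  intro h0
  obtain ⟨y, hy⟩ := exists_nonsingular W r
  refine Φ_eval_ne_zero hy h0 ?_
  simpa [h0] using hr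

omit [DecidableEq F] [IsAlgClosed F] [W.IsElliptic] in
lemma natDegree_Φ_sub {n : ℕ} (hn : n ≠ 0) (x₀ : F) :
    (W.Φ n - C x₀ * W.ΨSq n).natDegree = n ^ 2 := by
  have h2 := (natDegree_C_mul_le x₀ _).trans (W.natDegree_ΨSq_le n)
  have hpos : 0 < n ^ 2 := by positivity
  simp only [Int.natAbs_natCast] at h2
  rw [natDegree_sub_eq_left_of_natDegree_lt] <;> rw [W.natDegree_Φ]
  · simp
  · simp only [Int.natAbs_natCast]; omega

/-- Over a root `r` of `Φₙ - x₀ ΨSqₙ` lies a point which `n` maps to a given point over `x₀`. -/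
lemma exists_nsmul_eq_of_isRoot {n : ℕ} {x₀ y₀ r : F} (h₀ : W.toAffine.Nonsingular x₀ y₀)
    (hr : (W.Φ n - C x₀ * W.ΨSq n).IsRoot r) :
    ∃ P : W.toAffine.Point, n • P = Point.some x₀ y₀ h₀ ∧ P.xRep 0 = r := by
  obtain ⟨y, hy⟩ := exists_nonsingular W r
  have hne := eval_ΨSq_ne_zero_of_isRoot W hr
  obtain ⟨x', y', h', e, hx⟩ := exists_nsmul_eq_some hy hne
  have : x' = x₀ := by
    rw [hx, div_eq_iff hne]
    simpa [sub_eq_zero] using hr
  rcases (Point.X_eq_iff (h₁ := h') (h₂ := h₀)).mp this with H | H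
  · exact ⟨_, e.trans H, by simp⟩
  · exact ⟨-Point.some r y hy, by rw [smul_neg, e, H, neg_neg], by simp⟩

/-- Multiplication by a positive integer is surjective. -/
theorem nsmul_surjective {n : ℕ} (hn : n ≠ 0) :
    Function.Surjective fun P : W.toAffine.Point => n • P := by
  intro Q
  cases Q with
  | zero => exact ⟨0, nsmul_zero n⟩
  | some x₀ y₀ h₀ =>
    obtain ⟨r, hr⟩ := IsAlgClosed.exists_root (W.Φ n - C x₀ * W.ΨSq n) (by
      intro h
      have := natDegree_eq_of_degree_eq_some (n := 0) (by simpa using h)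
      rw [natDegree_Φ_sub W hn] at this
      simp [hn] at this)
    obtain ⟨P, hP, -⟩ := exists_nsmul_eq_of_isRoot W h₀ hr
    exact ⟨P, hP⟩

/-- Over an algebraically closed field in which `n` is invertible, there are exactly `n²`
points killed by `n`. -/
theorem card_nsmul_eq_zero {n : ℕ} (hn : (n : F) ≠ 0) :
    Nat.card {P : W.toAffine.Point // n • P = 0} = n ^ 2 := by
  classical
  have hn0 : n ≠ 0 := fun h => hn (by simp [h])
  -- choose a good target `x`-coordinate
  obtain ⟨x₀, hx₀⟩ := ((wronskianPoly W n).roots.toFinset.image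
    (fun r => (W.Φ n).eval r / (W.ΨSq n).eval r) ∪ W.Ψ₂Sq.roots.toFinset).exists_notMem
  obtain ⟨y₀, h₀⟩ := exists_nonsingular W x₀
  set Q : W.toAffine.Point := Point.some x₀ y₀ h₀
  have hQ : Q ≠ -Q := by
    intro h
    rw [eq_neg_iff_add_eq_zero, ← two_nsmul, nsmul_eq_zero_iff] at h
    apply hx₀
    rw [Finset.mem_union, Multiset.mem_toFinset, mem_roots (Ψ₂Sq_ne_zero_of_isElliptic W)]
    exact Or.inr (by simpa using h)
  set p := W.Φ n - C x₀ * W.ΨSq n with hp
  have hp0 : p ≠ 0 := ne_zero_of_natDegree_gt (n := 0) (by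
    rw [natDegree_Φ_sub W hn0]; positivity)
  have hnodup : p.roots.Nodup := by
    refine Multiset.nodup_iff_count_le_one.mpr fun r => ?_
    rw [count_roots]
    by_contra hr
    obtain ⟨hr1, hr2⟩ := (one_lt_rootMultiplicity_iff_isRoot hp0).mp (not_le.mp hr)
    apply hx₀
    rw [Finset.mem_union, Finset.mem_image]
    refine Or.inl ⟨r, ?_, ?_⟩
    · rw [Multiset.mem_toFinset, mem_roots (wronskianPoly_ne_zero W hn)]
      simp [hp] at hr1 hr2
      simp [wronskianPoly]
      linear_combination (W.ΨSq n).eval r * hr2 - (derivative (W.ΨSq n)).eval r * hr1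
    · rw [div_eq_iff (eval_ΨSq_ne_zero_of_isRoot W hr1)]
      simpa [hp, sub_eq_zero] using hr1
  have hcard : p.roots.toFinset.card = n ^ 2 := by
    rw [Multiset.toFinset_card_of_nodup hnodup, IsAlgClosed.card_roots_eq_natDegree,
      natDegree_Φ_sub W hn0]
  -- `x` gives a bijection from the fibre over `Q` to the roots of `p`
  have hfwd : ∀ P : W.toAffine.Point, n • P = Q → P.xRep 0 ∈ p.roots.toFinset := by
    intro P hP
    cases P with
    | zero =>
      rw [← Point.zero_def, nsmul_zero] at hP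
      exact absurd hP.symm (Point.some_ne_zero h₀)
    | some x y h =>
      have hne : (W.ΨSq n).eval x ≠ 0 := fun h' => by
        rw [(nsmul_eq_zero_iff h n).mpr h'] at hP
        exact Point.some_ne_zero h₀ hP.symm
      obtain ⟨x', y', h', e, hx⟩ := exists_nsmul_eq_some h hne
      rw [e, Point.some.injEq] at hP
      rw [hP.1, eq_div_iff hne] at hx
      simp [hp0]
      simp [hp, hx]
  have key : Nat.card {P : W.toAffine.Point // n • P = Q} = n ^ 2 := by
    rw [← hcard, ← Nat.card_eq_finsetCard]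
    refine Nat.card_eq_of_bijective (fun P => ⟨P.1.xRep 0, hfwd P.1 P.2⟩) ⟨?_, ?_⟩
    · rintro ⟨P, hP⟩ ⟨P', hP'⟩ hPP
      have hxx : P.xRep 0 = P'.xRep 0 := congrArg Subtype.val hPP
      cases P with
      | zero =>
        rw [← Point.zero_def, nsmul_zero] at hP
        exact absurd hP.symm (Point.some_ne_zero h₀)
      | some x y h => cases P' with
        | zero =>
          rw [← Point.zero_def, nsmul_zero] at hP'
          exact absurd hP'.symm (Point.some_ne_zero h₀)
        | some x' y' h' =>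
          rcases (Point.X_eq_iff (h₁ := h) (h₂ := h')).mp (by simpa using hxx) with H | H
          · exact Subtype.ext H
          · rw [H, smul_neg, hP'] at hP
            exact absurd hP.symm hQ
    · rintro ⟨r, hr⟩
      rw [Multiset.mem_toFinset, mem_roots hp0] at hr
      obtain ⟨P, hP, hPr⟩ := exists_nsmul_eq_of_isRoot W h₀ hr
      exact ⟨⟨P, hP⟩, Subtype.ext hPr⟩
  obtain ⟨P₀, hP₀⟩ := nsmul_surjective W hn0 Q
  rw [← key]
  exact Nat.card_congr ((Equiv.addLeft P₀).subtypeEquiv fun P => by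
    simp [show n • P₀ = Q from hP₀])

/-- `#E[n] = n²`, stated for `Submodule.torsionBy`. -/
theorem card_torsionBy {n : ℕ} (hn : (n : F) ≠ 0) :
    Nat.card (Submodule.torsionBy ℤ W.toAffine.Point n) = n ^ 2 := by
  rw [← card_nsmul_eq_zero W hn]
  exact Nat.card_congr (Equiv.subtypeEquivRight fun P => by simp)

/-- There are finitely many `n`-torsion points. -/
theorem finite_torsionBy {n : ℕ} (hn : (n : F) ≠ 0) :
    Finite (Submodule.torsionBy ℤ W.toAffine.Point n) :=
  Nat.finite_of_card_ne_zero (by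
    rw [card_torsionBy W hn]; exact pow_ne_zero _ fun h => hn (by simp [h]))

end Fermat.Agent.ECTorsion
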