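import Fermat.Agent.ECTorsion.EDS
import Mathlib.AlgebraicGeometry.EllipticCurve.DivisionPolynomial.Basic
import Mathlib.Tactic.FieldSimp

/-!
# Multiplication by `n` in terms of division polynomials

For a nonsingular point `(x, y)` of a Weierstrass curve over a field, `n • (x, y) = 0` exactly when
`ΨSqₙ x = 0` (`nsmul_eq_zero_iff`), and otherwise the `x`-coordinate of `n • (x, y)` is
`Φₙ x / ΨSqₙ x` (`exists_nsmul_eq_some`).
-/

namespace Fermat.Agent.ECTorsion

open WeierstrassCurve WeierstrassCurve.Affine Polynomial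
open scoped Polynomial.Bivariate

section Ring

variable {R : Type*} [CommRing R] (W : WeierstrassCurve R) (x y : R)

/-- `2y + a₁x + a₃` -/
def psiTwo : R := 2 * y + W.a₁ * x + W.a₃

/-- `6x² + b₂x + b₄` -/
def tanT : R := 6 * x ^ 2 + W.b₂ * x + W.b₄

/-- The value of the `n`-division polynomial at `(x, y)`. -/
noncomputable def psiVal (n : ℤ) : R :=
  normEDS (psiTwo W x y) (W.Ψ₃.eval x) (W.preΨ₄.eval x) n

lemma psiTwo_eq_sub_negY : psiTwo W x y = y - W.toAffine.negY x y := by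
  simp [psiTwo, Affine.negY]; ring

lemma evalEval_ψ₂ : W.ψ₂.evalEval x y = psiTwo W x y := by
  rw [ψ₂, Affine.evalEval_polynomialY, psiTwo]

lemma evalEval_ψ (n : ℤ) : (W.ψ n).evalEval x y = psiVal W x y n := by
  rw [WeierstrassCurve.ψ, ← coe_evalEvalRingHom, map_normEDS]
  simp [psiVal, evalEval_ψ₂]

variable {W x y} (h : W.toAffine.Equation x y)
include h

lemma evalEval_eq_of_mk_eq {p q : R[X][Y]}
    (hpq : CoordinateRing.mk W.toAffine p = CoordinateRing.mk W.toAffine q) :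
    p.evalEval x y = q.evalEval x y := by
  obtain ⟨r, hr⟩ := AdjoinRoot.mk_eq_mk.mp hpq
  have := congrArg (evalEvalRingHom x y) hr
  rw [map_sub, map_mul] at this
  simp only [coe_evalEvalRingHom] at this
  rw [show W.toAffine.polynomial.evalEval x y = 0 from h, zero_mul] at this
  exact sub_eq_zero.mp this

lemma psiTwo_sq : psiTwo W x y ^ 2 = W.Ψ₂Sq.eval x := by
  have h' := (Affine.equation_iff' ..).mp h
  simp [psiTwo, Ψ₂Sq, b₂, b₄, b₆]
  linear_combination 4 * h'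

lemma preΨ₄_eval_eq :
    W.preΨ₄.eval x = W.Ψ₃.eval x * tanT W x - psiTwo W x y ^ 4 := by
  rw [show psiTwo W x y ^ 4 = (psiTwo W x y ^ 2) ^ 2 by ring, psiTwo_sq h]
  simp [preΨ₄, Ψ₃, Ψ₂Sq, tanT, b₂, b₄, b₆, b₈]
  ring

lemma psiVal_eq_eds (n : ℤ) :
    psiVal W x y n = eds (psiTwo W x y) (W.Ψ₃.eval x) (tanT W x) n := by
  rw [psiVal, eds, preΨ₄_eval_eq h]

lemma psiVal_sq (n : ℤ) : psiVal W x y n ^ 2 = (W.ΨSq n).eval x := by
  rw [← evalEval_ψ, ← coe_evalEvalRingHom, ← map_pow, coe_evalEvalRingHom,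
    evalEval_eq_of_mk_eq h (p := W.ψ n ^ 2) (q := C (W.ΨSq n))
      (by rw [map_pow, Affine.CoordinateRing.mk_ψ, Affine.CoordinateRing.mk_Ψ_sq]),
    evalEval_C]

lemma Φ_eval_eq (n : ℤ) :
    (W.Φ n).eval x = x * psiVal W x y n ^ 2 - psiVal W x y (n + 1) * psiVal W x y (n - 1) := by
  rw [← evalEval_C x y (W.Φ n), ← evalEval_eq_of_mk_eq h (Affine.CoordinateRing.mk_φ W n),
    WeierstrassCurve.φ]
  simp [evalEval_ψ, evalEval_C]

lemma psiVal_somos (n : ℕ) :
    psiVal W x y (n + 2) * psiVal W x y (n - 2) =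
      psiTwo W x y ^ 2 * psiVal W x y (n + 1) * psiVal W x y (n - 1) -
        W.Ψ₃.eval x * psiVal W x y n ^ 2 := by
  simp only [psiVal_eq_eds h]
  exact eds_somos ..

lemma psiVal_invariant (n : ℕ) :
    psiVal W x y (n + 2) * psiVal W x y (n - 1) ^ 2 +
        psiVal W x y (n + 1) ^ 2 * psiVal W x y (n - 2) +
      psiTwo W x y ^ 2 * psiVal W x y n ^ 3 =
      tanT W x * psiVal W x y (n + 1) * psiVal W x y n * psiVal W x y (n - 1) := by
  simp only [psiVal_eq_eds h]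
  exact eds_invariant ..

end Ring

section Field

variable {F : Type*} [Field F] {W : WeierstrassCurve F} {x y : F}

/-- The description of `n • (x, y)` by division polynomials. -/
def MulSpec [DecidableEq F] (h : W.toAffine.Nonsingular x y) (n : ℕ) : Prop :=
  (psiVal W x y n = 0 → n • Point.some _ _ h = 0) ∧
    (psiVal W x y n ≠ 0 → ∃ x' y' h', n • Point.some _ _ h = Point.some x' y' h' ∧
      x' * psiVal W x y n ^ 2 =
        x * psiVal W x y n ^ 2 - psiVal W x y (n + 1) * psiVal W x y (n - 1) ∧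
      psiTwo W x' y' * psiVal W x y n ^ 4 = psiVal W x y (2 * n))

lemma Ψ₃_eval_eq (h : W.toAffine.Equation x y) :
    W.Ψ₃.eval x = -(3 * x ^ 2 + 2 * W.a₂ * x + W.a₄ - W.a₁ * y) ^ 2 -
      W.a₁ * (3 * x ^ 2 + 2 * W.a₂ * x + W.a₄ - W.a₁ * y) * psiTwo W x y +
      (W.a₂ + 3 * x) * psiTwo W x y ^ 2 := by
  have he := (Affine.equation_iff' ..).mp h
  simp [Ψ₃, psiTwo, b₂, b₄, b₆, b₈]
  linear_combination -(W.a₁ ^ 2 + 4 * W.a₂ + 12 * x) * he

lemma Ψ₃_eval_ne_zero_of_psiTwo_eq_zero (h : W.toAffine.Nonsingular x y)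
    (hB : psiTwo W x y = 0) : W.Ψ₃.eval x ≠ 0 := by
  intro hC
  have key := Ψ₃_eval_eq h.1
  rw [hB, hC] at key
  have hN : 3 * x ^ 2 + 2 * W.a₂ * x + W.a₄ - W.a₁ * y = 0 := by
    simpa using key
  rcases ((Affine.nonsingular_iff' ..).mp h).2 with h1 | h1
  · exact h1 (by linear_combination -hN)
  · exact h1 hB

variable [DecidableEq F] (h : W.toAffine.Nonsingular x y)

lemma mulSpec_zero : MulSpec h 0 :=
  ⟨fun _ => zero_nsmul _, fun h0 => absurd (normEDS_zero ..) h0⟩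

lemma mulSpec_one : MulSpec h 1 := by
  refine ⟨fun h0 => absurd h0 (by simp [psiVal]), fun _ => ⟨x, y, h, one_nsmul _, ?_, ?_⟩⟩ <;>
    simp [psiVal]

lemma some_add_self (hB : psiTwo W x y ≠ 0) :
    ∃ x' y' h', Point.some _ _ h + Point.some _ _ h = Point.some x' y' h' ∧
      x' * psiTwo W x y ^ 2 = x * psiTwo W x y ^ 2 - W.Ψ₃.eval x ∧
      psiTwo W x' y' * psiTwo W x y ^ 3 = W.preΨ₄.eval x := by
  have hy : y ≠ W.toAffine.negY x y := by
    rw [psiTwo_eq_sub_negY] at hB; exact sub_ne_zero.mp hB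
  refine ⟨_, _, _, Point.add_self_of_Y_ne hy, ?_, ?_⟩
  · rw [Affine.slope_of_Y_ne rfl hy, ← psiTwo_eq_sub_negY, Affine.addX, Ψ₃_eval_eq h.1]
    generalize psiTwo W x y = B at hB ⊢
    field_simp
    ring
  · rw [preΨ₄_eval_eq h.1, Affine.slope_of_Y_ne rfl hy, ← psiTwo_eq_sub_negY]
    have hy' : ∀ ℓ, psiTwo W (W.toAffine.addX x x ℓ) (W.toAffine.addY x x y ℓ) =
        -(psiTwo W x y + (W.toAffine.addX x x ℓ - x) * (2 * ℓ + W.a₁)) := fun ℓ => by
      simp [psiTwo, Affine.addY, Affine.negY]; ring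
    have hT : tanT W x =
        2 * (3 * x ^ 2 + 2 * W.a₂ * x + W.a₄ - W.a₁ * y) + W.a₁ * psiTwo W x y := by
      simp [tanT, psiTwo, b₂, b₄]; ring
    rw [hy', Affine.addX, Ψ₃_eval_eq h.1, hT]
    generalize psiTwo W x y = B at hB ⊢
    field_simp
    ring

lemma mulSpec_two (hB : psiTwo W x y ≠ 0) : MulSpec h 2 := by
  have h2 : psiVal W x y 2 = psiTwo W x y := normEDS_two ..
  refine ⟨fun h0 => absurd (h2 ▸ h0) hB, fun _ => ?_⟩
  obtain ⟨x', y', h', e, hx, hy⟩ := some_add_self h hB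
  refine ⟨x', y', h', by rw [two_nsmul, e], ?_, ?_⟩ <;> simp [psiVal]
  · linear_combination hx
  · linear_combination psiTwo W x y * hy

lemma mulSpec_of_two_torsion (hB : psiTwo W x y = 0) (n : ℕ) : MulSpec h n := by
  have hy : y = W.toAffine.negY x y := by
    rw [psiTwo_eq_sub_negY] at hB; exact sub_eq_zero.mp hB
  have h2 : 2 • Point.some _ _ h = 0 := by rw [two_nsmul, Point.add_self_of_Y_eq hy]
  have heven : ∀ k : ℤ, Even k → psiVal W x y k = 0 := fun k hk => by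
    simp [psiVal, normEDS, hk, hB]
  have hodd : ∀ k : ℕ, psiVal W x y (2 * k + 1) ≠ 0 := by
    intro k
    induction k using Nat.strong_induction_on with
    | _ k ih =>
    match k with
    | 0 => simp [psiVal]
    | 1 => simpa [psiVal] using Ψ₃_eval_ne_zero_of_psiTwo_eq_zero h hB
    | k + 2 =>
      intro h0
      have hs := psiVal_somos h.1 (2 * k + 3)
      have i1 : ((2 * k + 3 : ℕ) : ℤ) = 2 * (k + 1 : ℕ) + 1 := by push_cast; ring
      have i2 : ((2 * k + 3 : ℕ) : ℤ) + 2 = 2 * (k + 2 : ℕ) + 1 := by push_cast; ring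
      rw [i2, h0, hB, i1] at hs
      simp only [zero_mul, ne_eq, OfNat.ofNat_ne_zero, not_false_eq_true, zero_pow,
        zero_sub, zero_eq_neg, mul_eq_zero, pow_eq_zero_iff] at hs
      exact hs.elim (Ψ₃_eval_ne_zero_of_psiTwo_eq_zero h hB) (ih (k + 1) (by omega))
  rcases n.even_or_odd' with ⟨k, rfl | rfl⟩
  · refine ⟨fun _ => by rw [mul_comm, mul_nsmul', h2, nsmul_zero], fun h0 => absurd ?_ h0⟩
    exact heven _ (by simp)
  · refine ⟨fun h0 => absurd (by exact_mod_cast h0) (hodd k), fun _ => ⟨x, y, h, ?_, ?_, ?_⟩⟩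
    · rw [add_nsmul, one_nsmul, mul_comm, mul_nsmul', h2, nsmul_zero, zero_add]
    · rw [heven (((2 * k + 1 : ℕ) : ℤ) + 1) ⟨k + 1, by push_cast; ring⟩]; ring
    · rw [hB, heven (2 * _) (even_two_mul _), zero_mul]

lemma mulSpec_succ (hB : psiTwo W x y ≠ 0) {n : ℕ} (h1 : MulSpec h (n + 1))
    (h2 : MulSpec h (n + 2)) : MulSpec h (n + 3) := by
  have hJ := psiVal_invariant h.1 (n + 2)
  have hJ1 := psiVal_invariant h.1 (n + 3)
  have hS := psiVal_somos h.1 (n + 2)
  have hE : ∀ m : ℤ, psiVal W x y (2 * m) * psiTwo W x y =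
      psiVal W x y (m - 1) ^ 2 * psiVal W x y m * psiVal W x y (m + 2) -
        psiVal W x y (m - 2) * psiVal W x y m * psiVal W x y (m + 1) ^ 2 :=
    fun m => normEDS_even ..
  have hE0 := hE (n + 1)
  have hE1 := hE (n + 2)
  have hE2 := hE (n + 3)
  unfold MulSpec at h1 h2 ⊢
  push_cast at *
  ring_nf at hJ hJ1 hS hE0 hE1 hE2 h1 h2 ⊢
  set a := psiVal W x y (n : ℤ)
  set b := psiVal W x y (1 + (n : ℤ)) with hb_def
  set c := psiVal W x y (2 + (n : ℤ)) with hc_def
  set d := psiVal W x y (3 + (n : ℤ)) with hd_def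
  set e := psiVal W x y (4 + (n : ℤ))
  set f := psiVal W x y (5 + (n : ℤ))
  set B := psiTwo W x y with hB_def
  set P : W.toAffine.Point := Point.some _ _ h with hP_def
  have hs1 : (3 + n) • P = (2 + n) • P + P := by
    rw [show 3 + n = 2 + n + 1 by omega, succ_nsmul]
  have hs0 : (2 + n) • P = (1 + n) • P + P := by
    rw [show 2 + n = 1 + n + 1 by omega, succ_nsmul]
  by_cases hc : c = 0
  · -- `(n + 2) • P = 0`
    have hnP := h2.1 hc
    have hsucc : (3 + n) • P = P := by rw [hs1, hnP, zero_add]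
    have hb : b ≠ 0 := by
      intro hb
      rw [h1.1 hb, zero_add, hnP] at hs0
      exact Point.some_ne_zero h hs0.symm
    obtain ⟨x', y', h', e', -, hy'⟩ := h1.2 hb
    rw [hnP, eq_comm, add_eq_zero_iff_eq_neg, e', Point.neg_some, Point.some.injEq] at hs0
    obtain ⟨rfl, rfl⟩ := hs0
    rw [show psiTwo W x' (W.toAffine.negY x' y) = -B by
      rw [hB_def, psiTwo_eq_sub_negY, psiTwo_eq_sub_negY, Affine.negY_negY]; ring] at hy'
    rw [hc] at hJ hE0 hE2
    rw [← hy'] at hE0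
    have hb3 : a ^ 2 * d = -(b ^ 3 * B ^ 2) := by
      apply mul_left_cancel₀ hb
      linear_combination -hE0
    have hd : d ≠ 0 := by
      intro hd
      rw [hd, mul_zero, zero_eq_neg] at hb3
      exact mul_ne_zero (pow_ne_zero 3 hb) (pow_ne_zero 2 hB) hb3
    refine ⟨fun h0 => absurd h0 hd, fun _ => ⟨x', y, h, hsucc, ?_, ?_⟩⟩
    · rw [hc]; ring
    · apply mul_right_cancel₀ hB
      apply mul_left_cancel₀ (pow_ne_zero 3 hb)
      linear_combination -(b ^ 3) * hE2 + d * (e * b ^ 2 - d ^ 2 * a) * hJ + d ^ 4 * hb3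
  obtain ⟨xn, yn, hn, en, hxn, hyn⟩ := h2.2 hc
  rw [← hyn] at hE1
  by_cases hb : b = 0
  · -- `(n + 1) • P = 0`
    rw [h1.1 hb, zero_add, en, hP_def, Point.some.injEq] at hs0
    obtain ⟨rfl, rfl⟩ := hs0
    rw [← hB_def] at hE1
    rw [hb] at hJ hJ1 hS hE1 hE2
    have hd : d ≠ 0 := by
      intro hd
      rw [hd] at hJ
      exact mul_ne_zero (pow_ne_zero 2 hB) (pow_ne_zero 3 hc) (by linear_combination hJ)
    obtain ⟨x2, y2, h2', e2, hx2, hy2⟩ := some_add_self h hB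
    have key : e * c * B ^ 2 = W.Ψ₃.eval xn * d ^ 2 := by
      apply mul_left_cancel₀ (pow_ne_zero 2 hc)
      linear_combination e * hJ - d ^ 2 * hS
    refine ⟨fun h0 => absurd h0 hd, fun _ => ⟨x2, y2, h2', by rw [hs1, en, ← hP_def, e2], ?_, ?_⟩⟩
    · apply mul_right_cancel₀ (pow_ne_zero 2 hB)
      linear_combination d ^ 2 * hx2 + key
    · apply mul_right_cancel₀ (pow_ne_zero 3 hB)
      rw [preΨ₄_eval_eq h.1, ← hB_def] at hy2
      linear_combination d ^ 4 * hy2 - B ^ 2 * hE2 - d * B ^ 2 * hJ1 - d ^ 2 * tanT W xn * key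
  obtain ⟨xm, ym, hm, em, hxm, -⟩ := h1.2 hb
  have hI : B ^ 2 * (e * c ^ 3 - b * d ^ 3) = b * f * c ^ 2 - e * a * d ^ 2 := by
    linear_combination e * hJ - b * hJ1
  have hxn' : xn = x - d * b / c ^ 2 := by
    field_simp; linear_combination hxn
  by_cases hd : d = 0
  · -- `(n + 3) • P = 0`
    refine ⟨fun _ => ?_, fun h0 => absurd hd h0⟩
    have hx : xn = x := by simp [hxn', hd]
    rcases (Point.X_eq_iff (h₁ := hn) (h₂ := h)).mp hx with H | H
    · rw [en, H, eq_comm, add_eq_right, em] at hs0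
      exact absurd hs0 (Point.some_ne_zero hm)
    · rw [hs1, en, H, neg_add_cancel]
  have hx : xn ≠ x := by
    rw [hxn']
    simp [hd, hb, hc]
  refine ⟨fun h0 => absurd h0 hd, fun _ => ?_⟩
  have hsum : (3 + n) • P = _ := hs1.trans (en ▸ Point.add_of_X_ne hx)
  refine ⟨_, _, nonsingular_add hn h fun hxy => hx hxy.left, hsum, ?_⟩
  have hdiff : (1 + n) • P = Point.some _ _
      (nonsingular_add hn ((nonsingular_neg ..).mpr h) fun hxy => hx hxy.left) := by
    rw [← Point.add_of_X_ne (h₁ := hn) (h₂ := (nonsingular_neg ..).mpr h) hx, ← Point.neg_some h,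
      ← en, hs0, add_neg_cancel_right]
  rw [em, Point.some.injEq] at hdiff
  have hxm' : xm = x - c * a / b ^ 2 := by
    field_simp; linear_combination hxm
  have hyn' : psiTwo W xn yn = (b ^ 2 * e - a * d ^ 2) / (c ^ 3 * B) := by
    field_simp
    apply mul_left_cancel₀ hc
    linear_combination hE1
  have hX := Affine.addX_eq_addX_negY_sub (W := W.toAffine) yn y hx
  rw [← hdiff.1, ← psiTwo_eq_sub_negY, ← psiTwo_eq_sub_negY, ← hB_def, hyn', hxm', hxn'] at hX
  have hX' : W.toAffine.addX xn x (W.toAffine.slope xn x yn y) = x - e * c / d ^ 2 := by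
    rw [hxn'] at *
    rw [hX]
    field_simp
    ring
  refine ⟨?_, ?_⟩
  · rw [hX']
    field_simp
    ring
  · have hY := Affine.addY_sub_negY_addY (W := W.toAffine) yn y hx
    simp only [hX'] at hY
    simp only [← psiTwo_eq_sub_negY] at hY
    rw [hX', hY, ← hB_def, hyn', hxn']
    apply mul_right_cancel₀ hB
    rw [show psiVal W x y (6 + (n : ℤ) * 2) * B = _ from (mul_comm _ _).trans hE2]
    field_simp
    linear_combination d * c * hI

/-- `MulSpec` holds for every `n`. -/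
theorem mulSpec (n : ℕ) : MulSpec h n := by
  by_cases hB : psiTwo W x y = 0
  · exact mulSpec_of_two_torsion h hB n
  induction n using Nat.strong_induction_on with
  | _ n ih =>
  match n with
  | 0 => exact mulSpec_zero h
  | 1 => exact mulSpec_one h
  | 2 => exact mulSpec_two h hB
  | n + 3 => exact mulSpec_succ h hB (ih _ (by omega)) (ih _ (by omega))

/-- A point is killed by `n` iff the `n`-th division polynomial vanishes at it. -/
theorem nsmul_eq_zero_iff_psiVal (n : ℕ) :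
    n • Point.some _ _ h = 0 ↔ psiVal W x y n = 0 := by
  refine ⟨fun h0 => by_contra fun hne => ?_, (mulSpec h n).1⟩
  obtain ⟨x', y', h', e, -⟩ := (mulSpec h n).2 hne
  exact Point.some_ne_zero h' (e ▸ h0)

/-- A point is killed by `n` iff its `x`-coordinate is a root of `ΨSqₙ`. -/
theorem nsmul_eq_zero_iff (n : ℕ) :
    n • Point.some _ _ h = 0 ↔ (W.ΨSq n).eval x = 0 := by
  rw [nsmul_eq_zero_iff_psiVal, ← psiVal_sq h.1, sq_eq_zero_iff]

/-- The `x`-coordinate of `n • (x, y)` is `Φₙ(x) / ΨSqₙ(x)`. -/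
theorem exists_nsmul_eq_some {n : ℕ} (hn : (W.ΨSq n).eval x ≠ 0) :
    ∃ x' y' h', n • Point.some _ _ h = Point.some x' y' h' ∧
      x' = (W.Φ n).eval x / (W.ΨSq n).eval x := by
  rw [← psiVal_sq h.1, ne_eq, sq_eq_zero_iff] at hn
  obtain ⟨x', y', h', e, hx, -⟩ := (mulSpec h n).2 hn
  refine ⟨x', y', h', e, ?_⟩
  rw [Φ_eval_eq h.1, ← psiVal_sq h.1, eq_div_iff (pow_ne_zero 2 hn), hx]

include h in
/-- `Φₙ` and `ΨSqₙ` have no common root at the `x`-coordinate of a nonsingular point. -/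
theorem Φ_eval_ne_zero {n : ℕ} (hn : (W.ΨSq n).eval x = 0) : (W.Φ n).eval x ≠ 0 := by
  rw [← psiVal_sq h.1, sq_eq_zero_iff] at hn
  have h0 := (mulSpec h n).1 hn
  intro hΦ
  rw [Φ_eval_eq h.1, hn] at hΦ
  have h1 : psiVal W x y (n + 1) * psiVal W x y (n - 1) = 0 := by linear_combination -hΦ
  rcases Nat.eq_zero_or_pos n with rfl | hpos
  · simp [psiVal] at h1
  obtain ⟨m, rfl⟩ := Nat.exists_eq_succ_of_ne_zero hpos.ne'
  rcases mul_eq_zero.mp h1 with h1 | h1
  · have := (mulSpec h (m + 1 + 1)).1 (by push_cast at h1 ⊢; convert h1 using 2)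
    rw [succ_nsmul, h0, zero_add] at this
    exact Point.some_ne_zero h this
  · have := (mulSpec h m).1 (by push_cast at h1 ⊢; ring_nf at h1 ⊢; exact h1)
    rw [succ_nsmul, this, zero_add] at h0
    exact Point.some_ne_zero h h0

end Field

end Fermat.Agent.ECTorsion
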