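import Fermat.Agent.ECTorsion.Galois
import Mathlib.GroupTheory.Exponent
import Mathlib.GroupTheory.SpecificGroups.Cyclic
import Mathlib.LinearAlgebra.Basis.Defs

/-!
# The structure of the `n`-torsion

`E[n]` is free of rank two over `ZMod n` when `n` is invertible in an algebraically closed base
field.
-/

namespace Fermat.Agent.ECTorsion

open WeierstrassCurve WeierstrassCurve.Affine

section Group

variable {A : Type*} [AddCommGroup A]

/-- A group killed by `n` whose `d`-torsion has `d²` elements for all `d ∣ n` is `(ZMod n)²`. -/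
theorem exists_generators_of_card_torsion {n : ℕ} (hn : n ≠ 0) (hA : ∀ a : A, n • a = 0)
    (hcard : ∀ d, d ∣ n → Nat.card {a : A // d • a = 0} = d ^ 2) :
    ∃ P Q : A, (∀ a : A, ∃ i j : ℕ, a = i • P + j • Q) ∧ Nat.card A = n ^ 2 := by
  have hA' : Nat.card A = n ^ 2 := by
    rw [← hcard n dvd_rfl]
    exact (Nat.card_congr (Equiv.subtypeUnivEquiv hA)).symm
  have : Finite A := Nat.finite_of_card_ne_zero (by rw [hA']; positivity)
  -- an element of order `n`
  have hexp : AddMonoid.exponent A = n := by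
    have hdvd : AddMonoid.exponent A ∣ n := AddMonoid.exponent_dvd_of_forall_nsmul_eq_zero hA
    have := hcard _ hdvd
    rw [Nat.card_congr (Equiv.subtypeUnivEquiv AddMonoid.exponent_nsmul_eq_zero), hA'] at this
    exact Nat.pow_left_injective two_ne_zero this.symm
  obtain ⟨P, hP⟩ := AddMonoid.exists_addOrderOf_eq_exponent
    (AddMonoid.exponent_ne_zero.mp (hexp ▸ hn))
  rw [hexp] at hP
  set H := AddSubgroup.zmultiples P
  have hH : Nat.card H = n := by rw [Nat.card_zmultiples, hP]
  have hquot : Nat.card (A ⧸ H) = n := by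
    have := AddSubgroup.card_eq_card_quotient_mul_card_addSubgroup H
    rw [hA', hH, pow_two] at this
    exact (Nat.eq_of_mul_eq_mul_right (by omega) this).symm
  -- the quotient is cyclic
  have hexpQ : AddMonoid.exponent (A ⧸ H) = n := by
    set m := AddMonoid.exponent (A ⧸ H)
    have hm : m ∣ n := hquot ▸ AddGroup.exponent_dvd_nat_card
    have hle : ∀ a : A, m • a ∈ H := fun a => by
      rw [← QuotientAddGroup.eq_zero_iff, QuotientAddGroup.mk_nsmul]
      exact AddMonoid.exponent_nsmul_eq_zero _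
    set f : A →+ A := nsmulAddMonoidHom m with hf
    have hker : Nat.card f.ker = m ^ 2 := by
      rw [← hcard m hm]
      exact Nat.card_congr (Equiv.subtypeEquivRight fun a => by simp [hf])
    have hrange : Nat.card f.range ∣ n / m := by
      have hsub : f.range ≤ H := by rintro _ ⟨a, rfl⟩; exact hle a
      have : IsAddCyclic f.range :=
        isAddCyclic_of_injective (AddSubgroup.inclusion hsub) (AddSubgroup.inclusion_injective hsub)
      rw [← IsAddCyclic.exponent_eq_card]
      refine AddMonoid.exponent_dvd_of_forall_nsmul_eq_zero ?_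
      rintro ⟨_, a, rfl⟩
      ext
      simp [hf, ← mul_nsmul', Nat.div_mul_cancel hm, hA]
    have hmul : n ^ 2 = m ^ 2 * Nat.card f.range := by
      rw [← hA', ← hker, AddSubgroup.card_eq_card_quotient_mul_card_addSubgroup f.ker, mul_comm,
        Nat.card_congr (QuotientAddGroup.quotientKerEquivRange f).toEquiv]
    have hm0 : m ≠ 0 := fun h => hn (by simpa [h] using hm)
    obtain ⟨k, hk⟩ := hm
    rw [hk, Nat.mul_div_cancel_left k (by omega)] at hrange
    rw [hk, mul_pow] at hmul
    rw [← Nat.eq_of_mul_eq_mul_left (by positivity) hmul] at hrange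
    have hk1 : k ^ 2 ≤ k := Nat.le_of_dvd (by
      rcases Nat.eq_zero_or_pos k with rfl | h
      · exact absurd hk (by simpa using hn)
      · exact h) hrange
    have : k ≤ 1 := by nlinarith
    rcases (show k = 0 ∨ k = 1 by omega) with rfl | rfl
    · exact absurd hk (by simpa using hn)
    · simpa using hk.symm
  obtain ⟨q, hq⟩ := AddMonoid.exists_addOrderOf_eq_exponent
    (AddMonoid.exponent_ne_zero.mp (hexpQ ▸ hn))
  obtain ⟨Q, rfl⟩ := QuotientAddGroup.mk_surjective q
  have hgen : AddSubgroup.zmultiples (Q : A ⧸ H) = ⊤ :=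
    AddSubgroup.eq_top_of_card_eq _ (by rw [Nat.card_zmultiples, hq, hexpQ, hquot])
  refine ⟨P, Q, fun a => ?_, hA'⟩
  obtain ⟨j, hj⟩ := AddSubgroup.mem_zmultiples_iff.mp (hgen ▸ AddSubgroup.mem_top (a : A ⧸ H))
  rw [← QuotientAddGroup.mk_zsmul, QuotientAddGroup.eq, AddSubgroup.mem_zmultiples_iff] at hj
  obtain ⟨i, hi⟩ := hj
  have red : ∀ (z : ℤ) (R : A), ∃ k : ℕ, z • R = k • R := fun z R => by
    refine ⟨(z % n).toNat, ?_⟩
    rw [← natCast_zsmul, Int.toNat_of_nonneg (Int.emod_nonneg _ (by exact_mod_cast hn))]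
    conv_lhs => rw [← Int.mul_ediv_add_emod z n, add_zsmul, mul_zsmul', natCast_zsmul, hA,
      zsmul_zero, zero_add]
  obtain ⟨i', hi'⟩ := red i P
  obtain ⟨j', hj'⟩ := red j Q
  exact ⟨i', j', by rw [← hi', ← hj', hi]; abel⟩

end Group

section Curve

open scoped WeierstrassCurve.Affine

variable {K : Type*} [Field K] [DecidableEq K] [IsAlgClosed K]
  {R : Type*} [CommRing R] [Algebra R K] (W : WeierstrassCurve R)

/-- `E(K)[n] ≃ (ZMod n)²`. -/
theorem exists_torsionBasis (hΔ : algebraMap R K W.Δ ≠ 0) {n : ℕ} (hn : (n : K) ≠ 0) :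
    Nonempty (Module.Basis (Fin 2) (ZMod n) (Submodule.torsionBy ℤ (W⁄K).toAffine.Point n)) := by
  have hn0 : n ≠ 0 := fun h => hn (by simp [h])
  have := isElliptic_baseChange W hΔ
  have : NeZero n := ⟨hn0⟩
  have := finite_torsionBy (W⁄K) hn
  set A := Submodule.torsionBy ℤ (W⁄K).toAffine.Point n
  have hA : ∀ a : A, n • a = 0 := fun a => Subtype.ext (by
    rw [AddSubmonoidClass.coe_nsmul, ← natCast_zsmul]
    exact (Submodule.mem_torsionBy_iff _ _).mp a.2)
  obtain ⟨P, Q, hgen, hcard⟩ := exists_generators_of_card_torsion hn0 hA fun d hd => by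
    rw [← card_nsmul_eq_zero (W⁄K) (n := d) fun h0 => hn (by
      obtain ⟨c, rfl⟩ := hd; push_cast; rw [h0, zero_mul])]
    refine Nat.card_congr
      { toFun := fun a => ⟨a.1.1, ((AddSubmonoidClass.coe_nsmul a.1 d).symm.trans
          (congrArg Subtype.val a.2)).trans (ZeroMemClass.coe_zero _)⟩
        invFun := fun p => ⟨⟨p.1, ?_⟩, Subtype.ext ((AddSubmonoidClass.coe_nsmul _ d).trans
          (p.2.trans (ZeroMemClass.coe_zero _).symm))⟩
        left_inv := fun a => rfl
        right_inv := fun p => rfl }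
    obtain ⟨c, rfl⟩ := hd
    rw [Submodule.mem_torsionBy_iff]
    show ((d * c : ℕ) : ℤ) • p.1 = 0
    rw [natCast_zsmul, mul_nsmul, p.2, nsmul_zero]
  let f : (Fin 2 → ZMod n) →ₗ[ZMod n] A := Fintype.linearCombination (ZMod n) ![P, Q]
  have hsurj : Function.Surjective f := fun a => by
    obtain ⟨i, j, rfl⟩ := hgen a
    exact ⟨![(i : ZMod n), (j : ZMod n)], by
      simp [f, Fintype.linearCombination_apply, Fin.sum_univ_two, Nat.cast_smul_eq_nsmul]⟩
  have hbij : Function.Bijective f := by
    refine (Nat.bijective_iff_surjective_and_card f).mpr ⟨hsurj, ?_⟩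
    rw [hcard, Nat.card_fun, Nat.card_fin, Nat.card_zmod]
  exact ⟨Module.Basis.ofEquivFun (LinearEquiv.ofBijective f hbij).symm⟩

omit [IsAlgClosed K] in
/-- The `x`-coordinate of an `n`-torsion point, `n` odd, is a root of `preΨ' n`. -/
theorem eval_preΨ'_eq_zero_of_nsmul {V : WeierstrassCurve K} {n : ℕ} (hodd : Odd n) {x y : K}
    (h : V.toAffine.Nonsingular x y) (hP : n • Point.some _ _ h = 0) :
    (V.preΨ' n).eval x = 0 := by
  have := (nsmul_eq_zero_iff h n).mp hP
  rw [WeierstrassCurve.ΨSq_ofNat, if_neg (Nat.not_even_iff_odd.mpr hodd), mul_one,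
    Polynomial.eval_pow, sq_eq_zero_iff] at this
  exact this

end Curve

section Rat

open scoped WeierstrassCurve.Affine

/-- `E[n] ≃ (ZMod n)²` over `ℚ̄`. -/
theorem exists_torsionBasis_rat (W : WeierstrassCurve ℚ) (hΔ : W.Δ ≠ 0) {n : ℕ} (hn : n ≠ 0) :
    Nonempty (Module.Basis (Fin 2) (ZMod n)
      (Submodule.torsionBy ℤ (W⁄(AlgebraicClosure ℚ)).Point n)) :=
  exists_torsionBasis (K := AlgebraicClosure ℚ) W (by simpa using hΔ) (by exact_mod_cast hn)

end Rat

end Fermat.Agent.ECTorsion
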