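import Mathlib.NumberTheory.EllipticDivisibilitySequence
import Mathlib.Algebra.MvPolynomial.CommRing
import Mathlib.RingTheory.MvPolynomial.Basic
import Mathlib.Tactic.LinearCombination

/-!
# Somos relations for normalised elliptic divisibility sequences

The sequence `eds B C T` satisfies the Somos-4 relation (`eds_somos`) and has the invariant
`eds_invariant`, over any commutative ring.  Both are proved in the universal ring, where no term
of the sequence other than the zeroth vanishes.
-/

namespace Fermat.Agent.ECTorsion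

variable {R : Type*} [CommRing R]

/-- The normalised EDS parametrised by `B = ψ₂`, `C = ψ₃` and `T` with `ψ₄ = (CT - B⁴)B`. -/
def eds (B C T : R) (n : ℤ) : R :=
  normEDS B C (C * T - B ^ 4) n

lemma map_eds {S : Type*} [CommRing S] (f : R →+* S) (B C T : R) (n : ℤ) :
    f (eds B C T n) = eds (f B) (f C) (f T) n := by
  simp [eds, map_normEDS]

section Universal

/-- The universal coefficient ring for `eds`. -/
local notation "𝕌" => MvPolynomial (Fin 3) ℤ

/-- The universal `eds`. -/
noncomputable def edsU (n : ℤ) : 𝕌 :=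
  eds (MvPolynomial.X 0) (MvPolynomial.X 1) (MvPolynomial.X 2) n

lemma normEDS_int_id (n : ℕ) : normEDS (2 : ℤ) 3 2 n = n := by
  induction n using normEDSRec with
  | zero => simp
  | one => simp
  | two => simp
  | three => simp
  | four => simp
  | even m h₁ h₂ h₃ h₄ h₅ =>
    have h := normEDS_even (2 : ℤ) 3 2 (m + 3 : ℕ)
    push_cast at h₁ h₂ h₃ h₄ h₅ h ⊢
    ring_nf at h₁ h₂ h₃ h₄ h₅ h ⊢
    rw [h₁, h₂, h₃, h₄, h₅] at h
    linarith
  | odd m h₁ h₂ h₃ h₄ =>
    have h := normEDS_odd (2 : ℤ) 3 2 (m + 2 : ℕ)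
    push_cast at h₁ h₂ h₃ h₄ h ⊢
    ring_nf at h₁ h₂ h₃ h₄ h ⊢
    rw [h₁, h₂, h₃, h₄] at h
    linarith

lemma edsU_ne_zero {n : ℤ} (hn : n ≠ 0) : edsU n ≠ 0 := by
  intro h
  have key : ∀ k : ℕ, edsU k = 0 → k = 0 := by
    intro k hk
    have h1 := congrArg (MvPolynomial.eval ![(2 : ℤ), 3, 6]) hk
    rw [edsU, map_eds, map_zero] at h1
    have h2 : eds (2 : ℤ) 3 6 k = 0 := by simpa using h1
    rw [eds, show (3 * 6 - 2 ^ 4 : ℤ) = 2 by norm_num, normEDS_int_id] at h2
    exact_mod_cast h2
  rcases n.eq_nat_or_neg with ⟨k, rfl | rfl⟩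
  · exact hn (by simp [key k h])
  · refine hn ?_
    have : edsU k = 0 := by simpa [edsU, eds] using h
    simp [key k this]

end Universal

section Domain

/-- `W` is an elliptic net restricted to `(i, j, 1, 0)` with index sum `i + j = N`. -/
private def RelAt (W : ℤ → R) (N : ℤ) : Prop :=
  ∀ i j : ℤ, 1 ≤ j → j < i → i + j = N →
    W (i + j) * W (i - j) = W (i + 1) * W (i - 1) * W j ^ 2 - W (j + 1) * W (j - 1) * W i ^ 2

variable [IsDomain R] {B C T : R}

private lemma inv_of_somos (hne : ∀ n : ℤ, n ≠ 0 → eds B C T n ≠ 0) (k : ℕ)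
    (hS : ∀ i : ℕ, 2 ≤ i → i ≤ k →
      eds B C T (i + 2) * eds B C T (i - 2) =
        B ^ 2 * eds B C T (i + 1) * eds B C T (i - 1) - C * eds B C T i ^ 2) :
    eds B C T (k + 2) * eds B C T (k - 1) ^ 2 + eds B C T (k + 1) ^ 2 * eds B C T (k - 2) +
      B ^ 2 * eds B C T k ^ 3 = T * eds B C T (k + 1) * eds B C T k * eds B C T (k - 1) := by
  induction k with
  | zero =>
    simp [eds]
  | succ k ih =>
    have ih := ih fun i h1 h2 => hS i h1 (by omega)
    rcases lt_or_ge k 2 with hk | hk
    · rcases (show k = 0 ∨ k = 1 by omega) with rfl | rfl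
      · simp [eds]
      · simp [eds]; ring
    · have hb : eds B C T (k - 1) ≠ 0 := hne _ (by omega)
      have e1 := hS k hk (by omega)
      have e2 := hS (k + 1) (by omega) le_rfl
      push_cast at e2 ⊢
      ring_nf at e1 e2 ih hb ⊢
      apply mul_left_cancel₀ hb
      linear_combination
        eds B C T (2 + (k : ℤ)) * ih -
          eds B C T (1 + (k : ℤ)) ^ 2 * e1 + eds B C T (k : ℤ) ^ 2 * e2

private lemma relAt_all (hne : ∀ n : ℤ, n ≠ 0 → eds B C T n ≠ 0) (N : ℕ) :
    RelAt (eds B C T) N := by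
  induction N using Nat.strong_induction_on with
  | _ N IH =>
  have rel : ∀ i j : ℤ, 1 ≤ j → j < i → i + j < N →
      eds B C T (i + j) * eds B C T (i - j) =
        eds B C T (i + 1) * eds B C T (i - 1) * eds B C T j ^ 2 -
          eds B C T (j + 1) * eds B C T (j - 1) * eds B C T i ^ 2 := by
    intro i j h1 h2 h3
    lift i + j to ℕ using (by omega) with M hM
    have := IH M (by omega) i j h1 h2 hM.symm
    rwa [← hM] at this
  have somos : ∀ i : ℕ, 2 ≤ i → i + 2 < N →
      eds B C T (i + 2) * eds B C T (i - 2) =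
        B ^ 2 * eds B C T (i + 1) * eds B C T (i - 1) - C * eds B C T i ^ 2 := by
    intro i h1 h2
    rcases h1.eq_or_lt with rfl | h1
    · simp [eds]
      ring
    · rw [rel i 2 one_le_two (by omega) (by omega)]
      simp [eds]
      ring
  suffices H : ∀ d : ℕ, ∀ i j : ℤ, i - j = d → 1 ≤ j → j < i → i + j = N →
      eds B C T (i + j) * eds B C T (i - j) =
        eds B C T (i + 1) * eds B C T (i - 1) * eds B C T j ^ 2 -
          eds B C T (j + 1) * eds B C T (j - 1) * eds B C T i ^ 2 by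
    intro i j h1 h2 h3
    exact H (i - j).toNat i j (by omega) h1 h2 h3
  intro d
  induction d using Nat.strong_induction_on with
  | _ d IHd =>
  intro i j hd hj hji hN
  rcases hj.eq_or_lt with rfl | hj2
  · simp [eds]
  rcases (show d = 1 ∨ d = 2 ∨ 3 ≤ d by omega) with rfl | rfl | hd3
  · obtain rfl : i = j + 1 := by omega
    have := normEDS_odd B C (C * T - B ^ 4) j
    simp only [eds] at *
    ring_nf at this ⊢
    rw [show (normEDS B C (C * T - B ^ 4) 1) = 1 from normEDS_one ..]
    linear_combination this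
  · obtain rfl : i = j + 2 := by omega
    have := normEDS_even B C (C * T - B ^ 4) (j + 1)
    simp only [eds] at *
    ring_nf at this ⊢
    rw [show (normEDS B C (C * T - B ^ 4) 2) = B from normEDS_two ..]
    linear_combination this
  · -- step from `(i - 1, j + 1)` to `(i, j)`
    obtain ⟨k, rfl⟩ : ∃ k : ℤ, i = k + 1 := ⟨i - 1, by omega⟩
    lift k to ℕ using (by omega)
    lift j to ℕ using (by omega)
    have P := rel (k - 1) j (by omega) (by omega) (by omega)
    have Q := rel k (j - 1) (by omega) (by omega) (by omega)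
    have Rr := IHd (d - 2) (by omega) k (j + 1) (by omega) (by omega) (by omega) (by omega)
    have Si := somos k (by omega) (by omega)
    have Sj := somos j (by omega) (by omega)
    have Ji := inv_of_somos hne k (fun l h1 h2 => somos l h1 (by omega))
    have Jj := inv_of_somos hne j (fun l h1 h2 => somos l h1 (by omega))
    have n1 : eds B C T ((k : ℤ) - 1 - j) ≠ 0 := hne _ (by omega)
    have n2 : eds B C T ((k : ℤ) + j - 1) ≠ 0 := hne _ (by omega)
    ring_nf at P Q Rr Si Sj Ji Jj n1 n2 ⊢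
    set W := eds B C T
    apply mul_left_cancel₀ (mul_ne_zero n1 n2)
    linear_combination
      -((W (2 + ↑k) * W ↑k * W ↑j ^ 2 - W (1 + ↑j) * W (-1 + ↑j) * W (1 + ↑k) ^ 2) * P
      - (W (-1 + ↑k - ↑j) * W (1 + ↑k + ↑j)) * Q
      - (W (1 + ↑k) * W (-1 + ↑k) * W (-1 + ↑j) ^ 2 - W ↑j * W (-2 + ↑j) * W ↑k ^ 2) * Rr
      + W ↑j ^ 4 * W ↑k ^ 2 * Si - W ↑k ^ 4 * W ↑j ^ 2 * Sj
      - W ↑j ^ 2 * W ↑k * W (1 + ↑j) * W (-1 + ↑j) * Ji
      + W ↑k ^ 2 * W ↑j * W (1 + ↑k) * W (-1 + ↑k) * Jj)

private lemma somos_of_domain (hne : ∀ n : ℤ, n ≠ 0 → eds B C T n ≠ 0) (i : ℕ) :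
    eds B C T (i + 2) * eds B C T (i - 2) =
      B ^ 2 * eds B C T (i + 1) * eds B C T (i - 1) - C * eds B C T i ^ 2 := by
  rcases (show i = 0 ∨ i = 1 ∨ i = 2 ∨ 2 < i by omega) with rfl | rfl | rfl | hi
  · simp [eds]; ring
  · simp [eds]
  · simp [eds]; ring
  · have := relAt_all hne (i + 2) i 2 one_le_two (by omega) (by push_cast; rfl)
    rw [this]
    simp [eds]
    ring

end Domain

variable (B C T : R)

private lemma eval_edsU (n : ℤ) :
    MvPolynomial.eval₂Hom (Int.castRingHom R) ![B, C, T]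
      (eds (MvPolynomial.X 0) (MvPolynomial.X 1) (MvPolynomial.X 2) n) = eds B C T n := by
  simp [map_eds]

/-- Somos-4 relation for a normalised EDS. -/
theorem eds_somos (i : ℕ) :
    eds B C T (i + 2) * eds B C T (i - 2) =
      B ^ 2 * eds B C T (i + 1) * eds B C T (i - 1) - C * eds B C T i ^ 2 := by
  have := congrArg (MvPolynomial.eval₂Hom (Int.castRingHom R) ![B, C, T])
    (somos_of_domain (fun n hn => edsU_ne_zero (n := n) hn) i)
  simp only [map_mul, map_pow, map_sub, eval_edsU] at this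
  simpa using this

/-- The invariant of the Somos-4 recurrence. -/
theorem eds_invariant (k : ℕ) :
    eds B C T (k + 2) * eds B C T (k - 1) ^ 2 + eds B C T (k + 1) ^ 2 * eds B C T (k - 2) +
      B ^ 2 * eds B C T k ^ 3 = T * eds B C T (k + 1) * eds B C T k * eds B C T (k - 1) := by
  have := congrArg (MvPolynomial.eval₂Hom (Int.castRingHom R) ![B, C, T])
    (inv_of_somos (fun n hn => edsU_ne_zero (n := n) hn) k
      (fun i _ _ => somos_of_domain (fun n hn => edsU_ne_zero (n := n) hn) i))
  simp only [map_mul, map_pow, map_add, eval_edsU] at this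
  simpa using this

end Fermat.Agent.ECTorsion
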